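/-
Programme AV (S27 branch), brick F1 (model curve of a function field), slice F1a-PLACES (helper21).

`Charts.lean`: the affine chart ring `B = intRing K x` (integral closure of `K[x]` in `F`, from
`Fermat/Agent/X0/FFSum.lean`) of a function field `F / K` with a separating generator `x`:

* Dedekind / finite / finite type facts under a separability hypothesis (any characteristic);
* `placeEquiv`: places of `F / K` whose valuation ring contains a Dedekind domain `B` with fraction
  field `F` ≃ height one primes of `B`; `chartEquiv`: places with `x ∈ O_v` ≃ height one primes of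
  `intRing K x`; every place contains `x` or `x⁻¹` (`mem_or_inv_mem`);
* valuation subrings of `F` (arbitrary, not only places) containing `K` and `x` contain `intRing K x`;
* residue fields at maximal ideals are `K` when `K` is algebraically closed.
-/
import Mathlib
import Fermat.Agent.X0.FFSum
import Fermat.Agent.X0.FFDedekind

set_option autoImplicit false
set_option linter.style.haveILetI false
set_option linter.unusedSectionVars false

open AlgebraicCurve IntermediateField IsDedekindDomain IsLocalRing
open Fermat.Agent.X0.FF Fermat.Agent.X0.FFDedekind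
open scoped IntermediateField.algebraAdjoinAdjoin

namespace Fermat.Agent.AV.F1Places21.Charts

variable {K F : Type*} [Field K] [Field F] [Algebra K F] {x : F}

/-! ### The chart ring -/

/-- `x` as an element of the integral closure of `K[x]`. -/
def genB (K : Type*) {F : Type*} [Field K] [Field F] [Algebra K F] (x : F) : intRing K x :=
  ⟨x, (isIntegral_algebraMap : IsIntegral (polyRing K x) (algebraMap (polyRing K x) F (genA K x)))⟩

@[simp] theorem coe_genB : ((genB K x : intRing K x) : F) = x := rfl

theorem isDedekindDomain_intRing_of_isSeparable (hx : IsGen K x) [Algebra.IsSeparable K⟮x⟯ F] :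
    IsDedekindDomain (intRing K x) := by
  have := hx.finite
  have := isPrincipalIdealRing_polyRing hx.transcendental
  exact integralClosure.isDedekindDomain (polyRing K x) K⟮x⟯ F

theorem finite_intRing_of_isSeparable (hx : IsGen K x) [Algebra.IsSeparable K⟮x⟯ F] :
    Module.Finite (polyRing K x) (intRing K x) := by
  have := hx.finite
  have := isPrincipalIdealRing_polyRing hx.transcendental
  exact IsIntegralClosure.finite (polyRing K x) K⟮x⟯ F (intRing K x)

theorem finiteType_polyRing (hx : Transcendental K x) : Algebra.FiniteType K (polyRing K x) :=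
  Algebra.FiniteType.equiv inferInstance (Polynomial.algEquivOfTranscendental K x hx)

theorem finiteType_intRing_of_isSeparable (hx : IsGen K x) [Algebra.IsSeparable K⟮x⟯ F] :
    Algebra.FiniteType K (intRing K x) := by
  have hfin := finite_intRing_of_isSeparable hx
  have h1 : Algebra.FiniteType K (polyRing K x) := finiteType_polyRing hx.transcendental
  have h2 : Algebra.FiniteType (polyRing K x) (intRing K x) := inferInstance
  exact Algebra.FiniteType.trans h1 h2

theorem not_isField_polyRing (hx : Transcendental K x) : ¬ IsField (polyRing K x) := by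
  intro hf
  exact Polynomial.not_isField K
    ((Polynomial.algEquivOfTranscendental K x hx).toRingEquiv.toMulEquiv.isField hf)

theorem not_isField_intRing (hx : Transcendental K x) : ¬ IsField (intRing K x) := by
  intro hf
  have hint : Algebra.IsIntegral (polyRing K x) (intRing K x) := inferInstance
  have hinj : Function.Injective (algebraMap (polyRing K x) (intRing K x)) :=
    fun a b h => Subtype.ext (congrArg (fun z : intRing K x => (z : F)) h)
  exact not_isField_polyRing hx (isField_of_isIntegral_of_isField hinj hf)

/-! ### Places and height one primes -/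

section Generic

variable {B : Type*} [CommRing B] [IsDedekindDomain B] [Algebra B F] [IsFractionRing B F]
  [Algebra K B] [IsScalarTower K B F]

/-- Places of `F / K` whose valuation ring contains the Dedekind domain `B` (with fraction field
`F`) correspond to the height one primes of `B`, via the centre. -/
noncomputable def placeEquiv :
    {v : Place K F // ∀ b : B, algebraMap B F b ∈ v.toValuationSubring} ≃ HeightOneSpectrum B where
  toFun v := centreSpec v.1 v.2
  invFun w := ⟨Place.ofHeightOneSpectrum (K := K) (F := F) w, algebraMap_mem_ofHeightOneSpectrum w⟩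
  left_inv v := Subtype.ext (ofHeightOneSpectrum_centreSpec v.1 v.2)
  right_inv w := centreSpec_ofHeightOneSpectrum w

@[simp] theorem placeEquiv_apply_asIdeal
    (v : {v : Place K F // ∀ b : B, algebraMap B F b ∈ v.toValuationSubring}) :
    (placeEquiv v).asIdeal = centre v.1 v.2 := rfl

@[simp] theorem placeEquiv_symm_apply_coe (w : HeightOneSpectrum B) :
    ((placeEquiv (K := K) (F := F)).symm w : Place K F) =
      Place.ofHeightOneSpectrum (K := K) (F := F) w := rfl

/-- `b ∈ B` lies in the centre of `v` iff it vanishes at `v`. -/
theorem mem_centre_iff_ord_pos (v : Place K F)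
    (hB : ∀ b : B, algebraMap B F b ∈ v.toValuationSubring) {b : B} (hb : b ≠ 0) :
    b ∈ centre v hB ↔ 0 < v.ord (algebraMap B F b) := by
  have h := ord_ofHeightOneSpectrum_algebraMap_pos_iff (K := K) (F := F) (centreSpec v hB) hb
  rw [ofHeightOneSpectrum_centreSpec] at h
  exact h.symm

end Generic

/-! ### The chart `x ∈ O_v` -/

section Chart

theorem forall_mem_iff (v : Place K F) :
    (∀ b : intRing K x, algebraMap (intRing K x) F b ∈ v.toValuationSubring) ↔
      x ∈ v.toValuationSubring :=
  ⟨fun h => h (genB K x), fun h => intRing_le_of_mem v h⟩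

/-- An arbitrary valuation subring of `F` containing `K` and `x` contains the integral closure of
`K[x]` (input of the valuative criterion). -/
theorem intRing_le_valuationSubring (O : ValuationSubring F)
    (hK : ∀ a : K, algebraMap K F a ∈ O) (hxO : x ∈ O) (b : intRing K x) :
    algebraMap (intRing K x) F b ∈ O := by
  let OK : Subalgebra K F := { O.toSubring with algebraMap_mem' := hK }
  have hA : ∀ a : polyRing K x, algebraMap (polyRing K x) F a ∈ O.toSubring := by
    intro a
    have h1 : Algebra.adjoin K {x} ≤ OK := Algebra.adjoin_le (by
      intro y hy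
      rw [Set.mem_singleton_iff] at hy
      subst hy
      exact hxO)
    exact h1 a.2
  let _ : Algebra (polyRing K x) O :=
    ((algebraMap (polyRing K x) F).codRestrict O.toSubring hA).toAlgebra
  have : IsScalarTower (polyRing K x) O F := IsScalarTower.of_algebraMap_eq fun f => rfl
  have hb : IsIntegral (polyRing K x) (algebraMap (intRing K x) F b) := b.2
  have hb' : IsIntegral O (algebraMap (intRing K x) F b) := hb.tower_top
  obtain ⟨z, hz⟩ := IsIntegrallyClosed.isIntegral_iff.mp hb'
  exact hz ▸ z.2

/-- Every place of `F / K` lies in the chart of `x` or in the chart of `x⁻¹`. -/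
theorem mem_or_inv_mem (x : F) (v : Place K F) :
    x ∈ v.toValuationSubring ∨ x⁻¹ ∈ v.toValuationSubring :=
  v.toValuationSubring.mem_or_inv_mem x

/-- Places in the chart of `x` ≃ height one primes of the integral closure of `K[x]`. -/
noncomputable def chartEquiv (K : Type*) {F : Type*} [Field K] [Field F] [Algebra K F] (x : F)
    [IsDedekindDomain (intRing K x)] [IsFractionRing (intRing K x) F] :
    {v : Place K F // x ∈ v.toValuationSubring} ≃ HeightOneSpectrum (intRing K x) :=
  (Equiv.subtypeEquivRight (fun v => (forall_mem_iff v).symm)).trans placeEquiv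

theorem chartEquiv_apply_asIdeal [IsDedekindDomain (intRing K x)] [IsFractionRing (intRing K x) F]
    (v : {v : Place K F // x ∈ v.toValuationSubring}) :
    (chartEquiv K x v).asIdeal = centre v.1 (intRing_le_of_mem v.1 v.2) := rfl

theorem chartEquiv_symm_apply_coe [IsDedekindDomain (intRing K x)]
    [IsFractionRing (intRing K x) F] (w : HeightOneSpectrum (intRing K x)) :
    ((chartEquiv K x).symm w : Place K F) = Place.ofHeightOneSpectrum (K := K) (F := F) w := rfl

/-- The points of the chart of `x⁻¹` outside the chart of `x` are those where `x⁻¹` vanishes. -/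
theorem genB_inv_mem_centre_iff (hx0 : x ≠ 0) [IsDedekindDomain (intRing K x⁻¹)]
    [IsFractionRing (intRing K x⁻¹) F] (v : Place K F) (hv : x⁻¹ ∈ v.toValuationSubring) :
    genB K x⁻¹ ∈ centre v (intRing_le_of_mem v hv) ↔ x ∉ v.toValuationSubring := by
  have hne : genB K x⁻¹ ≠ 0 := by
    intro h
    exact inv_ne_zero hx0 (congrArg (fun z : intRing K x⁻¹ => (z : F)) h)
  rw [mem_centre_iff_ord_pos v _ hne, ffp_mem_iff_ord_nonneg]
  have : algebraMap (intRing K x⁻¹) F (genB K x⁻¹) = x⁻¹ := rfl
  rw [this, v.ord_inv]
  omega

end Chart

/-! ### Residue fields -/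

/-- Nullstellensatz form: the residue fields of a finite type algebra over an algebraically closed
field are the base field. -/
theorem bijective_algebraMap_quotient_of_finiteType {B : Type*} [CommRing B] [Algebra K B]
    [IsAlgClosed K] [Algebra.FiniteType K B] (m : Ideal B) [hm : m.IsMaximal] :
    Function.Bijective (algebraMap K (B ⧸ m)) := by
  letI : Field (B ⧸ m) := Ideal.Quotient.field m
  have h1 : Algebra.FiniteType K (B ⧸ m) :=
    Algebra.FiniteType.of_surjective (Ideal.Quotient.mkₐ K m) (Ideal.Quotient.mkₐ_surjective K m)
  have h2 : Module.Finite K (B ⧸ m) := finite_of_finite_type_of_isJacobsonRing K (B ⧸ m)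
  exact IsAlgClosed.algebraMap_bijective_of_isIntegral

/-! ### Global sections are constants -/

section Global

variable [IsAlgClosed K] [CharZero K]

/-- An element of `F` lying in every valuation ring of a place is a constant. -/
theorem eq_algebraMap_of_forall_mem (hx : IsGen K x) {z : F}
    (hz : ∀ v : Place K F, z ∈ v.toValuationSubring) : ∃ c : K, z = algebraMap K F c := by
  by_cases hzt : Transcendental K z
  · exfalso
    have hzg := hx.of_transcendental hzt
    have h1 := sum_ord_poles hzg
    have h2 : ∑ᶠ (v : Place K F) (_ : v.ord z < 0), -v.ord z = 0 := by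
      apply finsum_eq_zero_of_forall_eq_zero
      intro v
      have hv : ¬ (v.ord z < 0) := not_lt.2 (ffp_ord_nonneg_of_mem v (hz v))
      simp [hv]
    have := hzg.finite
    have h3 : 0 < Module.finrank K⟮z⟯ F := Module.finrank_pos
    omega
  · exact eq_algebraMap_of_isAlgebraic (not_not.1 hzt)

/-- `B₀ ∩ B₁ = K`: an element of `F` integral over both `K[x]` and `K[x⁻¹]` is a constant. -/
theorem eq_algebraMap_of_isIntegral_of_isIntegral_inv (hx : IsGen K x) {z : F}
    (h0 : IsIntegral (polyRing K x) z) (h1 : IsIntegral (polyRing K x⁻¹) z) :
    ∃ c : K, z = algebraMap K F c :=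
  eq_algebraMap_of_forall_mem hx fun v =>
    (mem_or_inv_mem x v).elim (fun h => intRing_le_of_mem v h ⟨z, h0⟩)
      (fun h => intRing_le_of_mem v h ⟨z, h1⟩)

end Global

end Fermat.Agent.AV.F1Places21.Charts
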