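/-
Programme AV (S27 branch), brick F1 (model curve of a function field), slice F1a-PLACES (helper21).

`Gen.lean`: existence of a separating transcendental generator.

* `finrank_kaehler_eq_card`: for `v : ι → F` algebraically independent over `K` with `F` separable
  algebraic over `K(v)`, `dim_F Ω[F⁄K] = #ι`.
* `exists_isGen_of_finrank_kaehler`: `K` perfect, `F / K` finitely generated as a field with
  `dim_F Ω[F⁄K] = 1`: there is `x : F` transcendental over `K` with `F` finite separable over
  `K(x)`.
* `exists_isGen`: the same from `[IsCurveOver K F] [Algebra.EssFiniteType K F]`, in the vocabulary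
  `Fermat.Agent.X0.FF.IsGen` of the function field library `Fermat/Agent/X0/FF*.lean`.
-/
import Mathlib
import Fermat.Prelude.Def_AlgebraicCurve_IsCurveOver
import Fermat.Agent.X0.FFDefs

set_option autoImplicit false
set_option linter.style.haveILetI false

open IntermediateField TensorProduct AlgebraicCurve
open scoped IntermediateField.algebraAdjoinAdjoin

namespace Fermat.Agent.AV.F1Places21.Gen

variable (K F : Type*) [Field K] [Field F] [Algebra K F]

/-- `dim_F Ω[F⁄K] = #ι` when `F` is separable algebraic over the purely transcendental
subextension generated by an algebraically independent family `v : ι → F`. -/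
theorem finrank_kaehler_eq_card {ι : Type*} [Fintype ι] (v : ι → F)
    (hb : AlgebraicIndependent K v)
    [Algebra.IsSeparable (IntermediateField.adjoin K (Set.range v)) F] :
    Module.finrank F Ω[F⁄K] = Fintype.card ι := by
  classical
  let P := MvPolynomial ι K
  let A := Algebra.adjoin K (Set.range v)
  let S := IntermediateField.adjoin K (Set.range v)
  let e : P ≃ₐ[K] A := hb.aevalEquiv
  letI algPA : Algebra P A := e.toAlgHom.toRingHom.toAlgebra
  haveI : IsScalarTower K P A := IsScalarTower.of_algebraMap_eq (fun r => (e.commutes r).symm)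
  letI algPF : Algebra P F := ((algebraMap A F).comp (algebraMap P A)).toAlgebra
  haveI : IsScalarTower P A F := IsScalarTower.of_algebraMap_eq (fun _ => rfl)
  haveI : IsScalarTower K P F := IsScalarTower.of_algebraMap_eq (fun r => by
    rw [IsScalarTower.algebraMap_apply K A F, IsScalarTower.algebraMap_apply K P A]
    rfl)
  haveI : Algebra.FormallyEtale P A :=
    Algebra.FormallyEtale.of_equiv (AlgEquiv.ofRingEquiv (f := e.toRingEquiv) (fun _ => rfl))
  haveI : Algebra.FormallyEtale A S := .of_isLocalization (nonZeroDivisors A)
  haveI : Algebra.FormallyEtale S F := Algebra.FormallyEtale.of_isSeparable S F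
  haveI : Algebra.FormallyEtale A F := .comp A S F
  haveI : Algebra.FormallyEtale P F := .comp P A F
  have h1 := (KaehlerDifferential.tensorKaehlerEquivOfFormallyEtale K P F).finrank_eq
  rw [← h1, Module.finrank_baseChange,
    Module.finrank_eq_card_basis (KaehlerDifferential.mvPolynomialBasis K ι)]

/-- **Existence of a separating generator.**  `K` perfect, `F / K` a finitely generated field
extension with `dim_F Ω[F⁄K] = 1`: there is `x : F`, transcendental over `K`, with `F` finite and
separable over `K(x)`. -/
theorem exists_gen_of_finrank_kaehler [PerfectField K] [Algebra.EssFiniteType K F]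
    (h1 : Module.finrank F Ω[F⁄K] = 1) :
    ∃ x : F, Transcendental K x ∧ FiniteDimensional K⟮x⟯ F ∧ Algebra.IsSeparable K⟮x⟯ F := by
  classical
  obtain ⟨s, hs, hsep⟩ := exists_isTranscendenceBasis_and_isSeparable_of_perfectField K F
  have hsep' : Algebra.IsSeparable (IntermediateField.adjoin K (Set.range ((↑) : s → F))) F := by
    convert! hsep <;> simp
  have hcard := finrank_kaehler_eq_card K F ((↑) : s → F) hs.1
  rw [h1] at hcard
  have hc1 : s.card = 1 := by simpa using hcard.symm
  obtain ⟨x, rfl⟩ := Finset.card_eq_one.1 hc1
  have hsep'' : Algebra.IsSeparable K⟮x⟯ F := by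
    rw [Finset.coe_singleton] at hsep
    exact hsep
  refine ⟨x, ?_, ?_, hsep''⟩
  · have := hs.1.transcendental ⟨x, by simp⟩
    simpa using this
  · have : Algebra.IsAlgebraic K⟮x⟯ F := Algebra.IsSeparable.isAlgebraic K⟮x⟯ F
    have : Algebra.EssFiniteType K⟮x⟯ F := Algebra.EssFiniteType.of_comp K K⟮x⟯ F
    exact Algebra.finite_of_essFiniteType_of_isAlgebraic

/-- A function field `F / K` in the sense of the Prelude (`IsCurveOver`), finitely generated over a
perfect field `K`, has a transcendental generator `x` with `F` finite separable over `K(x)`. -/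
theorem exists_gen [PerfectField K] [IsCurveOver K F] [Algebra.EssFiniteType K F] :
    ∃ x : F, Transcendental K x ∧ FiniteDimensional K⟮x⟯ F ∧ Algebra.IsSeparable K⟮x⟯ F :=
  exists_gen_of_finrank_kaehler K F IsCurveOver.finrank_kaehler

/-- The same in the vocabulary of `Fermat/Agent/X0/FF*.lean`. -/
theorem exists_isGen [PerfectField K] [IsCurveOver K F] [Algebra.EssFiniteType K F] :
    ∃ x : F, Fermat.Agent.X0.FF.IsGen K x := by
  obtain ⟨x, hx, hfin, -⟩ := exists_gen K F
  exact ⟨x, ⟨hx, hfin⟩⟩

end Fermat.Agent.AV.F1Places21.Gen
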