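/-
Programme AV (S27 branch), brick F1 (model curve of a function field), slice F1a-PLACES (helper21).

`Overlap.lean`: the overlap ring of the two charts.  For `x : F`, `x ≠ 0`, let
`B₀ = intRing K x` (integral closure of `K[x]` in `F`), `B₁ = intRing K x⁻¹` and
`B₀₁ = overlap K x` (integral closure of `K[x, x⁻¹]`, as a `Subalgebra K F`).  Then `B₀₁` is the
localisation of `B₀` away from `x` and the localisation of `B₁` away from `x⁻¹`
(`isLocalization_away_toOverlap`, `isLocalization_away_toOverlapInv`), the maps being the inclusions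
inside `F`.
-/
import Mathlib
import Fermat.Agent.AV.F1Places21.Charts

set_option autoImplicit false
set_option linter.style.haveILetI false
set_option linter.unusedSectionVars false

open AlgebraicCurve Fermat.Agent.X0.FF Fermat.Agent.AV.F1Places21.Charts

namespace Fermat.Agent.AV.F1Places21.Overlap

/-- A criterion for `S` to be the localisation of `R` away from `g`, for an injective
`R → S`. -/
theorem isLocalization_away_of_injective {R S : Type*} [CommRing R] [CommRing S] [Algebra R S]
    (g : R) (hinj : Function.Injective (algebraMap R S)) (hu : IsUnit (algebraMap R S g))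
    (hsurj : ∀ z : S, ∃ (n : ℕ) (r : R), z * algebraMap R S g ^ n = algebraMap R S r) :
    IsLocalization.Away g S := by
  rw [IsLocalization.Away, isLocalization_iff]
  refine ⟨?_, ?_, ?_⟩
  · rintro ⟨_, n, rfl⟩
    simpa using hu.pow n
  · intro z
    obtain ⟨n, r, h⟩ := hsurj z
    exact ⟨(r, ⟨g ^ n, n, rfl⟩), by simpa using h⟩
  · intro a b h
    exact ⟨1, by rw [hinj h]⟩

variable {K F : Type*} [Field K] [Field F] [Algebra K F]

/-- Elements of `K[x, y]` with `x y = 1` have denominators a power of `x` over `K[x]`. -/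
theorem exists_pow_mul_mem_adjoin {x y : F} (hxy : x * y = 1) {z : F}
    (hz : z ∈ Algebra.adjoin K ({x, y} : Set F)) :
    ∃ n : ℕ, x ^ n * z ∈ Algebra.adjoin K ({x} : Set F) := by
  have hxmem : x ∈ Algebra.adjoin K ({x} : Set F) := Algebra.self_mem_adjoin_singleton K x
  induction hz using Algebra.adjoin_induction with
  | mem z hz =>
    rcases hz with rfl | hz
    · exact ⟨0, by simp [hxmem]⟩
    · rw [Set.mem_singleton_iff] at hz
      subst hz
      exact ⟨1, by rw [pow_one, hxy]; exact one_mem _⟩
  | algebraMap r => exact ⟨0, by simp⟩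
  | add a b _ _ ha hb =>
    obtain ⟨n, hn⟩ := ha
    obtain ⟨m, hm⟩ := hb
    refine ⟨n + m, ?_⟩
    have : x ^ (n + m) * (a + b) = x ^ m * (x ^ n * a) + x ^ n * (x ^ m * b) := by ring
    rw [this]
    exact add_mem (mul_mem (pow_mem hxmem m) hn) (mul_mem (pow_mem hxmem n) hm)
  | mul a b _ _ ha hb =>
    obtain ⟨n, hn⟩ := ha
    obtain ⟨m, hm⟩ := hb
    refine ⟨n + m, ?_⟩
    have : x ^ (n + m) * (a * b) = (x ^ n * a) * (x ^ m * b) := by ring
    rw [this]
    exact mul_mem hn hm

section Pair

variable (K) (x y : F)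

theorem adjoin_singleton_le_pair :
    Algebra.adjoin K ({x} : Set F) ≤ Algebra.adjoin K ({x, y} : Set F) :=
  Algebra.adjoin_mono (by simp)

/-- `K[x] → K[x, y]` -/
@[reducible] def algPair :
    Algebra (Algebra.adjoin K ({x} : Set F)) (Algebra.adjoin K ({x, y} : Set F)) :=
  (Subalgebra.inclusion (adjoin_singleton_le_pair K x y)).toAlgebra

theorem isScalarTower_pair :
    letI := algPair K x y
    IsScalarTower (Algebra.adjoin K ({x} : Set F)) (Algebra.adjoin K ({x, y} : Set F)) F :=
  Subalgebra.inclusion.isScalarTower_right (adjoin_singleton_le_pair K x y) _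

variable {x y}

theorem isLocalization_pair (hxy : x * y = 1) :
    letI := algPair K x y
    IsLocalization.Away (genA K x) (Algebra.adjoin K ({x, y} : Set F)) := by
  letI := algPair K x y
  refine isLocalization_away_of_injective (genA K x) ?_ ?_ ?_
  · exact Subalgebra.inclusion_injective (adjoin_singleton_le_pair K x y)
  · refine IsUnit.of_mul_eq_one (⟨y, Algebra.subset_adjoin (by simp)⟩ :
      Algebra.adjoin K ({x, y} : Set F)) ?_
    exact Subtype.ext hxy
  · rintro ⟨z, hz⟩
    obtain ⟨n, hn⟩ := exists_pow_mul_mem_adjoin hxy hz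
    refine ⟨n, ⟨x ^ n * z, hn⟩, Subtype.ext ?_⟩
    show z * x ^ n = x ^ n * z
    ring

/-- Integrality over `K[x, y]`, `x y = 1`, becomes integrality over `K[x]` after multiplication by
a power of `x`. -/
theorem exists_isIntegral_pow_mul (hxy : x * y = 1) {z : F}
    (hz : IsIntegral (Algebra.adjoin K ({x, y} : Set F)) z) :
    ∃ n : ℕ, IsIntegral (polyRing K x) (x ^ n * z) := by
  letI := algPair K x y
  haveI := isScalarTower_pair K x y
  haveI := isLocalization_pair K hxy
  obtain ⟨⟨m, n, rfl⟩, hm⟩ := IsIntegral.exists_multiple_integral_of_isLocalization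
    (Submonoid.powers (genA K x)) z hz
  refine ⟨n, ?_⟩
  have : (⟨genA K x ^ n, n, rfl⟩ : Submonoid.powers (genA K x)) • z = x ^ n * z := by
    rw [Submonoid.smul_def, Algebra.smul_def]
    rfl
  rwa [this] at hm

/-- Integrality over `K[x]` implies integrality over `K[x, y]`. -/
theorem isIntegral_pair_of_isIntegral {z : F} (hz : IsIntegral (polyRing K x) z) :
    IsIntegral (Algebra.adjoin K ({x, y} : Set F)) z := by
  letI := algPair K x y
  haveI := isScalarTower_pair K x y
  exact hz.tower_top

end Pair

/-- Abstract form: a `K`-subalgebra `T` of `F` containing `B₀ = intRing K x` and `y = x⁻¹`, all of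
whose elements become integral over `K[x]` after multiplication by a power of `x`, is the
localisation of `B₀` away from `x`. -/
theorem isLocalization_away_codRestrict {x y : F} (hxy : x * y = 1) (T : Subalgebra K F)
    (h : ∀ b : intRing K x, algebraMap (intRing K x) F b ∈ T) (hy : y ∈ T)
    (hc : ∀ z ∈ T, ∃ n : ℕ, IsIntegral (polyRing K x) (x ^ n * z)) :
    @IsLocalization.Away (intRing K x) _ (genB K x) T _
      ((algebraMap (intRing K x) F).codRestrict T h).toAlgebra := by
  letI := ((algebraMap (intRing K x) F).codRestrict T h).toAlgebra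
  refine isLocalization_away_of_injective (genB K x) ?_ ?_ ?_
  · intro a b hab
    have := congrArg (fun z : T => (z : F)) hab
    exact Subtype.ext this
  · exact IsUnit.of_mul_eq_one (⟨y, hy⟩ : T) (Subtype.ext hxy)
  · rintro ⟨z, hz⟩
    obtain ⟨n, hn⟩ := hc z hz
    refine ⟨n, ⟨x ^ n * z, hn⟩, Subtype.ext ?_⟩
    show z * x ^ n = x ^ n * z
    ring

/-! ### The overlap ring -/

section Overlap

variable (K) (x : F)

/-- The overlap ring `B₀₁`: the integral closure of `K[x, x⁻¹]` in `F`, as a `K`-subalgebra of
`F`. -/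
def overlap : Subalgebra K F :=
  (integralClosure (Algebra.adjoin K ({x, x⁻¹} : Set F)) F).restrictScalars K

variable {K x}

theorem mem_overlap {z : F} :
    z ∈ overlap K x ↔ IsIntegral (Algebra.adjoin K ({x, x⁻¹} : Set F)) z := Iff.rfl

theorem mem_overlap' {z : F} :
    z ∈ overlap K x ↔ IsIntegral (Algebra.adjoin K ({x⁻¹, x} : Set F)) z := by
  rw [mem_overlap, Set.pair_comm]

theorem algebraMap_intRing_mem_overlap (b : intRing K x) :
    algebraMap (intRing K x) F b ∈ overlap K x :=
  mem_overlap.2 (isIntegral_pair_of_isIntegral K b.2)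

theorem algebraMap_intRing_inv_mem_overlap (b : intRing K x⁻¹) :
    algebraMap (intRing K x⁻¹) F b ∈ overlap K x :=
  mem_overlap'.2 (isIntegral_pair_of_isIntegral K b.2)

theorem self_mem_overlap : x ∈ overlap K x :=
  algebraMap_intRing_mem_overlap (genB K x)

theorem inv_mem_overlap : x⁻¹ ∈ overlap K x :=
  algebraMap_intRing_inv_mem_overlap (genB K x⁻¹)

variable (K x)

/-- The inclusion `B₀ → B₀₁`. -/
def toOverlap : intRing K x →+* overlap K x :=
  (algebraMap (intRing K x) F).codRestrict (overlap K x) algebraMap_intRing_mem_overlap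

/-- The inclusion `B₁ → B₀₁`. -/
def toOverlapInv : intRing K x⁻¹ →+* overlap K x :=
  (algebraMap (intRing K x⁻¹) F).codRestrict (overlap K x) algebraMap_intRing_inv_mem_overlap

variable {K x}

@[simp] theorem coe_toOverlap (b : intRing K x) :
    ((toOverlap K x b : overlap K x) : F) = algebraMap (intRing K x) F b := rfl

@[simp] theorem coe_toOverlapInv (b : intRing K x⁻¹) :
    ((toOverlapInv K x b : overlap K x) : F) = algebraMap (intRing K x⁻¹) F b := rfl

theorem algebraMap_eq_of_toOverlap_eq {a b : intRing K x}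
    (hab : toOverlap K x a = toOverlap K x b) :
    algebraMap (intRing K x) F a = algebraMap (intRing K x) F b := by
  have h := congrArg (fun z : overlap K x => (z : F)) hab
  exact h

theorem algebraMap_eq_of_toOverlapInv_eq {a b : intRing K x⁻¹}
    (hab : toOverlapInv K x a = toOverlapInv K x b) :
    algebraMap (intRing K x⁻¹) F a = algebraMap (intRing K x⁻¹) F b := by
  have h := congrArg (fun z : overlap K x => (z : F)) hab
  exact h

theorem eq_of_algebraMap_intRing_eq {y : F} {a b : intRing K y}
    (h : algebraMap (intRing K y) F a = algebraMap (intRing K y) F b) : a = b := Subtype.ext h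

theorem toOverlap_injective : Function.Injective (toOverlap K x) := fun _ _ hab =>
  eq_of_algebraMap_intRing_eq (algebraMap_eq_of_toOverlap_eq hab)

theorem toOverlapInv_injective : Function.Injective (toOverlapInv K x) := fun _ _ hab =>
  eq_of_algebraMap_intRing_eq (algebraMap_eq_of_toOverlapInv_eq hab)

theorem toOverlap_genB_mul (hx0 : x ≠ 0) :
    toOverlap K x (genB K x) * toOverlapInv K x (genB K x⁻¹) = 1 :=
  Subtype.ext (mul_inv_cancel₀ hx0)

/-- `B₀₁ = B₀[1/x]`. -/
theorem isLocalization_away_toOverlap (hx0 : x ≠ 0) :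
    @IsLocalization.Away (intRing K x) _ (genB K x) (overlap K x) _ (toOverlap K x).toAlgebra :=
  isLocalization_away_codRestrict (mul_inv_cancel₀ hx0) (overlap K x) _ inv_mem_overlap
    (fun _ hz => exists_isIntegral_pow_mul K (mul_inv_cancel₀ hx0) (mem_overlap.1 hz))

/-- `B₀₁ = B₁[1/x⁻¹]`. -/
theorem isLocalization_away_toOverlapInv (hx0 : x ≠ 0) :
    @IsLocalization.Away (intRing K x⁻¹) _ (genB K x⁻¹) (overlap K x) _
      (toOverlapInv K x).toAlgebra :=
  isLocalization_away_codRestrict (inv_mul_cancel₀ hx0) (overlap K x) _ self_mem_overlap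
    (fun _ hz => exists_isIntegral_pow_mul K (inv_mul_cancel₀ hx0) (mem_overlap'.1 hz))

end Overlap

end Fermat.Agent.AV.F1Places21.Overlap
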